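/-
Fermat/Agent/T1/ModelUnr4/Descent.lean  (helper4, programme T1, brick MODEL-UNR)

The `K`-dependence of the RED two-chart model, part 1: the Hauptmodul `t = tq K n e` lies in
`K·F_M` and `j ∈ K(t)` for EVERY subfield `K ⊂ ℚ̄` (no enlargement of `K`), by the `q`-expansion
principle `J/DESC/LaurentExt24.mem_range_bc_iff` (a function of `L·F₀` whose `q`-coefficients lie
in `K` comes from `K·F₀`).

* `mem_laurentBaseChange_of_coeffMap_mem` : the `q`-expansion principle in set form;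
* `tq_mem_FK`      : `tq K n e ∈ FK M K` from `TMem n e M`;
* `jq_mem_adjoin`  : `jqModC K ∈ K(tq K n e)` from `TGenBase n e`.
-/
import Fermat.Agent.J.DESC.LaurentExt24
import Fermat.Agent.RED.BASE.JInKt25
import Fermat.Agent.RED.Interface4

set_option autoImplicit false
set_option linter.unusedSectionVars false

noncomputable section

namespace Fermat.Agent.T1.ModelUnr4.Descent

open HahnSeries ModularCurve IntermediateField Polynomial
open Fermat.Agent.X0 Fermat.Agent.RED.BASE.EtaQuot12 Fermat.Agent.RED.BASE.Interface12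
open Fermat.Agent.RED.Interface4 Fermat.Agent.J.DESC.LaurentExt24

section General

universe u v

variable {k : Type u} {L : Type v} [Field k] [Field L] [Algebra ℚ k] [Algebra ℚ L] [Algebra k L]
  (F₀ : IntermediateField ℚ (LaurentSeries ℚ))

/-- **`q`-expansion principle, set form**: a Laurent series over `k` whose coefficientwise image
lies in `L·F₀` lies in `k·F₀`. -/
theorem mem_laurentBaseChange_of_coeffMap_mem {x : LaurentSeries k}
    (hx : coeffMap (algebraMap k L) x ∈ laurentBaseChange L F₀) :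
    x ∈ laurentBaseChange k F₀ := by
  have hc : ∀ m, ((⟨_, hx⟩ : ↥(laurentBaseChange L F₀)) : LaurentSeries L).coeff m ∈
      Set.range (algebraMap k L) := fun m => ⟨x.coeff m, rfl⟩
  obtain ⟨y₀, hy₀⟩ := (mem_range_bc_iff F₀ (⟨_, hx⟩ : ↥(laurentBaseChange L F₀))).mpr hc
  have h1 : bcS (K := L) (y₀ : LaurentSeries k) = coeffMap (algebraMap k L) x :=
    congrArg Subtype.val hy₀
  have h2 : (y₀ : LaurentSeries k) = x := bcS_injective h1
  rw [← h2]
  exact y₀.2

end General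

variable (n e : ℕ) [NeZero n]

/-- **(T1) for every `K`**: the Hauptmodul lies in `K·F_M`. -/
theorem tq_mem_FK {M : ℕ} [NeZero M] (h : TMem n e M) (K : IntermediateField ℚ Qbar) :
    tq ↥K n e ∈ FK M K := by
  apply mem_laurentBaseChange_of_coeffMap_mem (L := Qbar) (modularFunctionFieldFull M)
  rw [coeffMap_tq]
  exact h

/-- the base field `ℚ(t₀)`, `t₀ = tq ℚ n e`. -/
def ratT : IntermediateField ℚ (LaurentSeries ℚ) := ℚ⟮tq ℚ n e⟯

theorem coeffEmb_tq (L : Type*) [Field L] [Algebra ℚ L] : coeffEmb L (tq ℚ n e) = tq L n e :=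
  coeffMap_tq ℚ (algebraMap ℚ L) n e

/-- `L(t) ≤ L·ℚ(t₀)`. -/
theorem adjoin_tq_le (L : Type*) [Field L] [Algebra ℚ L] :
    L⟮tq L n e⟯ ≤ laurentBaseChange L (ratT n e) := by
  rw [adjoin_simple_le_iff, ← coeffEmb_tq n e L]
  exact coeffEmb_mem_laurentBaseChange L (mem_adjoin_simple_self ℚ (tq ℚ n e))

/-- `L·ℚ(t₀) ≤ L(t)`. -/
theorem laurentBaseChange_ratT_le (L : Type*) [Field L] [Algebra ℚ L] :
    laurentBaseChange L (ratT n e) ≤ L⟮tq L n e⟯ := by
  unfold laurentBaseChange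
  rw [IntermediateField.adjoin_le_iff]
  rintro _ ⟨z, hz, rfl⟩
  have hz' : z ∈ ℚ⟮tq ℚ n e⟯ := hz
  rw [mem_adjoin_simple_iff] at hz'
  obtain ⟨r, s, rfl⟩ := hz'
  rw [SetLike.mem_coe, mem_adjoin_simple_iff]
  refine ⟨r.map (algebraMap ℚ L), s.map (algebraMap ℚ L), ?_⟩
  rw [map_div₀]
  show coeffMap (algebraMap ℚ L) _ / coeffMap (algebraMap ℚ L) _ = _
  rw [Fermat.Agent.RED.BASE.JInKt25.coeffMap_aeval, Fermat.Agent.RED.BASE.JInKt25.coeffMap_aeval,
    coeffMap_tq]

/-- **(T5) for every `K`**: `j ∈ K(t)`. -/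
theorem jq_mem_adjoin (hgen : TGenBase n e) (K : IntermediateField ℚ Qbar) :
    jqModC ↥K ∈ (↥K)⟮tq ↥K n e⟯ := by
  obtain ⟨h, htop⟩ := hgen
  have hj : jF n ∈ Kbar⟮tF n h⟯ := by
    rw [htop]
    exact IntermediateField.mem_top
  rw [mem_adjoin_simple_iff] at hj
  obtain ⟨r, s, hrs⟩ := hj
  have hcoe : ∀ p : Kbar[X], ((aeval (tF n h) p : FF n) : LaurentSeries Kbar) = aeval (tK n e) p :=
    fun p => (aeval_algHom_apply (modularFunctionFieldBar n).val (tF n h) p).symm
  have hj' : jqModC Kbar ∈ Kbar⟮tq Kbar n e⟯ := by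
    rw [mem_adjoin_simple_iff]
    refine ⟨r, s, ?_⟩
    rw [← Fermat.Agent.RED.BASE.JInKt25.coe_jF_eq n, hrs]
    show (((aeval (tF n h) r / aeval (tF n h) s : FF n)) : LaurentSeries Kbar) = _
    rw [IntermediateField.coe_div, hcoe, hcoe]
  have hj'' : coeffMap (algebraMap ↥K Qbar) (jqModC ↥K) ∈ laurentBaseChange Qbar (ratT n e) := by
    rw [coeffMap_jqModC]
    exact adjoin_tq_le n e Qbar hj'
  exact laurentBaseChange_ratT_le n e ↥K
    (mem_laurentBaseChange_of_coeffMap_mem (L := Qbar) (ratT n e) hj'')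

end Fermat.Agent.T1.ModelUnr4.Descent
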