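/-
Fermat/Agent/T1/ModelUnr4/CuspVal.lean  (helper4, programme T1, brick G0 MODEL-UNR)

**(iv)** the finite cusp values of the Hauptmodul lie in `A ∩ K` as soon as `ζ_M ∈ K`
(from `CuspPackK16.cusp_family_some`).
-/
import Fermat.Agent.T1.ModelUnr4.Descent
import Fermat.Agent.RED.CUSP.CuspConcrete23

set_option autoImplicit false
set_option linter.unusedSectionVars false
set_option linter.unusedVariables false
set_option linter.style.haveILetI false

open HahnSeries ModularCurve IntermediateField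
open scoped MatrixGroups

noncomputable section

namespace Fermat.Agent.T1.ModelUnr4.CuspVal

open Fermat.Agent.RED.Interface4 Fermat.Agent.RED.PUR.GaussGen8 Fermat.Agent.RED.PUR.KtGauss8
  Fermat.Agent.RED.PUR.G1Package8 Fermat.Agent.RED.ModelIface4 Fermat.Agent.RED.ModelTargets4
  Fermat.Agent.RED.BASE.EtaQuot12 Fermat.Agent.X0 Fermat.Agent.RED.NumInst4
  Fermat.Agent.RED.DESC.NumberFieldDVR27 Fermat.Agent.RED.BASE.Interface12
  Fermat.Agent.RED.DESC.PlaceExtend27 Fermat.Agent.RED.CUSP.IntClosedPS16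
  Fermat.Agent.RED.BASE.Hauptmodul12 Fermat.Agent.RED.CUSP.CuspEmbK16
  Fermat.Agent.RED.CUSP.CuspIface23

open Fermat.Agent.RED.BASE Fermat.Agent.RED.CUSP

variable {n e : ℕ} [NeZero n] {M : ℕ} [NeZero M] {A : ValuationSubring Qbar}

/-- **(iv)** the finite cusp values lie in `A ∩ K` as soon as `ζ_M ∈ K`. -/
theorem cuspValue_mem_AK (hb : BaseHyp n e) (hnM : n ∣ M) {ℓ : ℕ} [Fact ℓ.Prime]
    (hℓM : ¬ ℓ ∣ M) (hA : A.LiesOverPrime ℓ) (cv : SL(2, ℤ) → Option Kbar)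
    (hcv : MainCusp12.CuspExports n e M cv) (K : IntermediateField ℚ Qbar)
    [FiniteDimensional ℚ K] (hζ : zetaK M ∈ K) (γ : SL(2, ℤ)) (c : Kbar) (hγ : cv γ = some c) :
    ∃ a : ↥(AK A K), algebraMap ↥K Kbar (a : ↥K) = c := by
  have hℓ : ℓ.Prime := Fact.out
  have hB := Main12.baseExports hb M hnM
  have hdvr : IsDiscreteValuationRing ↥(AK A K) := isDiscreteValuationRing_AK A K hℓ.ne_zero hA
  have hMA : ((M : Qbar))⁻¹ ∈ A := inv_natCast_mem hℓ hA M hℓM
  have htE : tq ↥K n e ∈ FK M K := Descent.tq_mem_FK n e hB.mem K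
  obtain ⟨c', hc', -⟩ := CuspPackK16.cusp_family_some A hb hnM cv hcv.cuspExp hB.mem hζ hMA
    (⟨tq ↥K n e, htE⟩ : FK M K)
    (RankConcrete16.baseChangeHom_eq_tF M K hB.mem (⟨tq ↥K n e, htE⟩ : FK M K) rfl) γ c hγ
  exact ⟨c', hc'⟩

end Fermat.Agent.T1.ModelUnr4.CuspVal
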