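/-
Fermat/Agent/T1/ModelUnr4/HorizCusp.lean  (helper4, programme T1, brick G0 MODEL-UNR)

The horizontal bridge at the CUSP closed points over `A ∩ K` for every number field `K ∋ ζ_M`
(the `K`-specific parts of `RED/CUSP/CuspHoriz4.hH_over`, `hH_inf`).
-/
import Fermat.Agent.T1.ModelUnr4.CuspVal
import Fermat.Agent.RED.CUSP.CuspHoriz4

set_option autoImplicit false
set_option linter.unusedSectionVars false
set_option linter.unusedVariables false
set_option linter.style.haveILetI false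

open ModularCurve IntermediateField AlgebraicCurve
open scoped MatrixGroups
open Polynomial

noncomputable section

namespace Fermat.Agent.T1.ModelUnr4.HorizCusp

open Fermat.Agent.X0 Fermat.Agent.X0.FF
open Fermat.Agent.RED.BASE.Interface12 Fermat.Agent.RED.BASE.EtaQuot12
open Fermat.Agent.RED.CUSP.CuspIface23 Fermat.Agent.RED.CUSP.PolyToPS16
open Fermat.Agent.RED.PUR Fermat.Agent.RED.CUSP.CuspHoriz4

open Fermat.Agent.RED.Interface4 Fermat.Agent.RED.ModelTargets4 Fermat.Agent.RED.NumInst4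
  Fermat.Agent.RED.DESC.NumberFieldDVR27 Fermat.Agent.RED.DESC.PlaceExtend27
  Fermat.Agent.RED.BASE.Hauptmodul12 Fermat.Agent.RED.BASE

variable {n e : ℕ} [NeZero n] {M : ℕ} [NeZero M] {A : ValuationSubring Qbar}

/-- **The horizontal bridge at the cusp points over the finite cusp values, every `K ∋ ζ_M`.** -/
theorem hunrCusp_of_zeta (hb : BaseHyp n e) (hnM : n ∣ M) {ℓ : ℕ} [Fact ℓ.Prime]
    (hℓM : ¬ ℓ ∣ M) (hA : A.LiesOverPrime ℓ) (cv : SL(2, ℤ) → Option Kbar)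
    (hcv : MainCusp12.CuspExports n e M cv) (K : IntermediateField ℚ Qbar)
    (hKfd : FiniteDimensional ℚ K) (hζ : zetaK M ∈ K) (ϖ : ↥(AK A K)) (hϖ : Irreducible ϖ)
    (t : ↥(FK M K)) (htq : (t : LaurentSeries K) = tq ↥K n e)
    (c : ↥(AK A K)) (hc : c ∈ cuspSet A K cv) :
    HUNRCusp (AK A K) (FK M K) ϖ t c := by
  classical
  have hℓ : ℓ.Prime := Fact.out
  have hB := Main12.baseExports hb M hnM
  have hdvr : IsDiscreteValuationRing ↥(AK A K) := isDiscreteValuationRing_AK A K hℓ.ne_zero hA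
  haveI halg : Algebra.IsAlgebraic ↥K Kbar := isAlgebraic_Qbar_over K
  obtain ⟨h, hC⟩ := hcv.cuspExp
  obtain ⟨h', hU⟩ := hB.unbranched
  obtain ⟨h'', hgen⟩ := hB.isGen
  have hconst : ∀ c : Kbar, tF M h ≠ algebraMap Kbar (FF M) c := fun c h0 =>
    hgen.sub_algebraMap_ne_zero c (sub_eq_zero.mpr h0)
  have hℓn : ¬ ℓ ∣ n := fun hdvd => hℓM (hdvd.trans hnM)
  have hnA : ((n : Kbar))⁻¹ ∈ A := inv_natCast_mem hℓ hA n hℓn
  have hcvA : ∀ γ c, cv γ = some c → ∃ a : ↥(AK A K), algebraMap ↥K Kbar (a : ↥K) = c :=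
    CuspVal.cuspValue_mem_AK hb hnM hℓM hA cv hcv K hζ
  obtain ⟨γ₀, hγ₀⟩ := hc
  have hsep : ∀ a : ↥(AK A K), (∃ γ, cv γ = some (algebraMap ↥K Kbar (a : ↥K))) →
      a = c ∨ IsUnit (c - a) := by
    rintro a ⟨γ, hγ⟩
    rcases hcv.separated γ₀ γ _ _ hγ₀ hγ with heq | hunit
    · left
      have h1 : ((c : ↥(AK A K)) : ↥K) = ((a : ↥(AK A K)) : ↥K) :=
        (algebraMap ↥K Kbar).injective heq
      exact (Subtype.ext h1).symm
    · right
      obtain ⟨hx, hxinv⟩ := hunit.inv_mem_of_inv_mem A hnA (NeZero.ne n)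
      have hne : (((c - a : ↥(AK A K)) : ↥(AK A K)) : ↥K) ≠ 0 := by
        intro h0
        apply hunit.1
        have h1 : ((c : ↥(AK A K)) : ↥K) - ((a : ↥(AK A K)) : ↥K) = 0 := h0
        rw [← map_sub, h1, map_zero]
      have hmem : ((((c - a : ↥(AK A K)) : ↥(AK A K)) : ↥K))⁻¹ ∈ AK A K := by
        show algebraMap ↥K Qbar ((((c - a : ↥(AK A K)) : ↥(AK A K)) : ↥K))⁻¹ ∈ A
        rw [map_inv₀]
        have h1 : algebraMap ↥K Qbar (((c - a : ↥(AK A K)) : ↥(AK A K)) : ↥K) =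
            algebraMap ↥K Kbar ((c : ↥(AK A K)) : ↥K) - algebraMap ↥K Kbar ((a : ↥(AK A K)) : ↥K) := by
          rw [← map_sub]; rfl
        rw [h1]
        exact hxinv
      exact isUnit_iff_exists_inv.mpr ⟨⟨_, hmem⟩, Subtype.ext (mul_inv_cancel₀ hne)⟩
  exact hunrCusp_generic n e M cv h hU hC hconst (AK A K) (FK M K) hcvA
    (baseChangeHom M K) (baseChangeHom_algebraMap M K) t
    (Fermat.Agent.RED.CUSP.RankConcrete16.baseChangeHom_eq_tF M K h t htq)
    (exists_place_above M K) hϖ c hsep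

/-- **The horizontal bridge at the cusp points `t⁻¹ = 0`, every `K ∋ ζ_M`.** -/
theorem hunrCuspInv_of_zeta (hb : BaseHyp n e) (hnM : n ∣ M) {ℓ : ℕ} [Fact ℓ.Prime]
    (hℓM : ¬ ℓ ∣ M) (hA : A.LiesOverPrime ℓ) (cv : SL(2, ℤ) → Option Kbar)
    (hcv : MainCusp12.CuspExports n e M cv) (K : IntermediateField ℚ Qbar)
    (hKfd : FiniteDimensional ℚ K) (hζ : zetaK M ∈ K) (ϖ : ↥(AK A K)) (hϖ : Irreducible ϖ)
    (t : ↥(FK M K)) (htq : (t : LaurentSeries K) = tq ↥K n e) :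
    HUNRCusp (AK A K) (FK M K) ϖ t⁻¹ 0 := by
  classical
  have hℓ : ℓ.Prime := Fact.out
  have hB := Main12.baseExports hb M hnM
  have hdvr : IsDiscreteValuationRing ↥(AK A K) := isDiscreteValuationRing_AK A K hℓ.ne_zero hA
  haveI halg : Algebra.IsAlgebraic ↥K Kbar := isAlgebraic_Qbar_over K
  obtain ⟨h, hC⟩ := hcv.cuspExp
  obtain ⟨h', hU⟩ := hB.unbranched
  obtain ⟨h'', hgen⟩ := hB.isGen
  have hconst : ∀ c : Kbar, tF M h ≠ algebraMap Kbar (FF M) c := fun c h0 =>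
    hgen.sub_algebraMap_ne_zero c (sub_eq_zero.mpr h0)
  have hcvA : ∀ γ c, cv γ = some c → ∃ a : ↥(AK A K), algebraMap ↥K Kbar (a : ↥K) = c :=
    CuspVal.cuspValue_mem_AK hb hnM hℓM hA cv hcv K hζ
  exact hunrCuspInv_generic n e M cv h hU hC hconst (AK A K) (FK M K) hcvA
    (baseChangeHom M K) (baseChangeHom_algebraMap M K) t
    (Fermat.Agent.RED.CUSP.RankConcrete16.baseChangeHom_eq_tF M K h t htq)
    (exists_place_above M K) hϖ

end Fermat.Agent.T1.ModelUnr4.HorizCusp
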