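/-
Fermat/Agent/T1/ModelUnr4/HorizOff.lean  (helper4, programme T1, brick G0 MODEL-UNR)

The horizontal bridge at the NON-cusp closed points over `A ∩ K` for every number field `K ∋ ζ_M`
(the `K`-specific part of `RED/PUR/OffHoriz4.hH_off`, with the cusp values in `A ∩ K` supplied by
`CuspVal.cuspValue_mem_AK`).
-/
import Fermat.Agent.T1.ModelUnr4.CuspVal
import Fermat.Agent.RED.PUR.OffHoriz4

set_option autoImplicit false
set_option linter.unusedSectionVars false
set_option linter.unusedVariables false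
set_option linter.style.haveILetI false

open HahnSeries ModularCurve IntermediateField AlgebraicCurve
open scoped MatrixGroups
open Polynomial

noncomputable section

namespace Fermat.Agent.T1.ModelUnr4.HorizOff

open Fermat.Agent.X0 Fermat.Agent.X0.FF
open Fermat.Agent.RED.BASE.Interface12 Fermat.Agent.RED.BASE.EtaQuot12
open Fermat.Agent.RED.PUR.OffIface4 Fermat.Agent.RED.PUR.OffHoriz4

open Fermat.Agent.RED.Interface4 Fermat.Agent.RED.ModelTargets4 Fermat.Agent.RED.NumInst4
  Fermat.Agent.RED.DESC.NumberFieldDVR27 Fermat.Agent.RED.DESC.PlaceExtend27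
  Fermat.Agent.RED.BASE.Hauptmodul12 Fermat.Agent.RED.BASE

variable {n e : ℕ} [NeZero n] {M : ℕ} [NeZero M] {A : ValuationSubring Qbar}

/-- **The horizontal bridge at the non-cusp closed points, over every `K ∋ ζ_M`.** -/
theorem hunrOff_of_zeta (hb : BaseHyp n e) (hnM : n ∣ M) {ℓ : ℕ} [Fact ℓ.Prime]
    (hℓM : ¬ ℓ ∣ M) (hA : A.LiesOverPrime ℓ) (cv : SL(2, ℤ) → Option Kbar)
    (hcv : MainCusp12.CuspExports n e M cv) (K : IntermediateField ℚ Qbar)
    (hKfd : FiniteDimensional ℚ K) (hζ : zetaK M ∈ K) (ϖ : ↥(AK A K)) (hϖ : Irreducible ϖ)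
    (t : ↥(FK M K)) (htq : (t : LaurentSeries K) = tq ↥K n e) :
    HUNROff (AK A K) (FK M K) ϖ t (cuspSet A K cv) := by
  classical
  have hℓ : ℓ.Prime := Fact.out
  have hB := Main12.baseExports hb M hnM
  have hdvr : IsDiscreteValuationRing ↥(AK A K) := isDiscreteValuationRing_AK A K hℓ.ne_zero hA
  haveI halg : Algebra.IsAlgebraic ↥K Kbar := isAlgebraic_Qbar_over K
  obtain ⟨h, hC⟩ := hcv.cuspExp
  obtain ⟨h', hU⟩ := hB.unbranched
  obtain ⟨h'', hgen⟩ := hB.isGen
  have hconst : ∀ c : Kbar, tF M h ≠ algebraMap Kbar (FF M) c := fun c h0 =>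
    hgen.sub_algebraMap_ne_zero c (sub_eq_zero.mpr h0)
  have hcvA : ∀ γ c, cv γ = some c → ∃ a : ↥(AK A K), algebraMap ↥K Kbar (a : ↥K) = c :=
    CuspVal.cuspValue_mem_AK hb hnM hℓM hA cv hcv K hζ
  exact hunrOff_generic n e M cv h hU hC hconst (AK A K) (FK M K) hcvA
    (baseChangeHom M K) (baseChangeHom_algebraMap M K) t
    (Fermat.Agent.RED.CUSP.RankConcrete16.baseChangeHom_eq_tF M K h t htq)
    (exists_place_above M K) hϖ

end Fermat.Agent.T1.ModelUnr4.HorizOff
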