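/-
Fermat/Agent/T1/ModelUnr4/Targets.lean  (helper4, programme T1, brick G0 MODEL-UNR)

The three smoothness targets of RED/MODEL (`SmoothOff` away from the cusp values, `SmoothOver` at the
finite cusp values, `SmoothOver` at `t⁻¹ = 0`) over `A ∩ K` for EVERY number field `K ⊂ ℚ̄`
containing `ζ_M` — no unspecified enlargement `K ⊇ K₀`.

The proofs are the `K`-specific parts of `RED/PUR/OffConcrete4`, `RED/CUSP/CuspConcrete23`, with the
`K`-dependent inputs supplied by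
* `Descent.tq_mem_FK`, `Descent.jq_mem_adjoin` (every `K`),
* `hζ : zetaK M ∈ K`,
* the horizontal bridges `HorizOff.hunrOff_of_zeta`, `HorizCusp.hunrCusp_of_zeta`,
  `HorizCusp.hunrCuspInv_of_zeta` (which use `CuspVal.cuspValue_mem_AK`).
-/
import Fermat.Agent.T1.ModelUnr4.HorizOff
import Fermat.Agent.T1.ModelUnr4.HorizCusp

set_option autoImplicit false
set_option linter.unusedSectionVars false
set_option linter.unusedVariables false
set_option linter.style.haveILetI false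

open HahnSeries ModularCurve IntermediateField
open scoped MatrixGroups

noncomputable section

namespace Fermat.Agent.T1.ModelUnr4.Targets

open Fermat.Agent.RED.Interface4 Fermat.Agent.RED.PUR.GaussGen8 Fermat.Agent.RED.PUR.KtGauss8
  Fermat.Agent.RED.PUR.G1Package8 Fermat.Agent.RED.ModelIface4 Fermat.Agent.RED.ModelTargets4
  Fermat.Agent.RED.BASE.EtaQuot12 Fermat.Agent.X0 Fermat.Agent.RED.NumInst4
  Fermat.Agent.RED.DESC.NumberFieldDVR27 Fermat.Agent.RED.BASE.Interface12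
  Fermat.Agent.RED.DESC.PlaceExtend27 Fermat.Agent.RED.CUSP.IntClosedPS16
  Fermat.Agent.RED.BASE.Hauptmodul12 Fermat.Agent.RED.CUSP.CuspEmbK16
  Fermat.Agent.RED.CUSP.CuspIface23 Fermat.Agent.RED.PUR.OffIface4

open Fermat.Agent.RED.BASE Fermat.Agent.RED.CUSP

variable {n e : ℕ} [NeZero n] {M : ℕ} [NeZero M] {A : ValuationSubring Qbar}

/-- **PUR over `K ∋ ζ_M`**: (LOC) at the non-cusp closed points of the chart `t`. -/
theorem smoothOff_of_zeta (hb : BaseHyp n e) (hnM : n ∣ M) {ℓ : ℕ} [Fact ℓ.Prime]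
    (hℓM : ¬ ℓ ∣ M) (hA : A.LiesOverPrime ℓ) (cv : SL(2, ℤ) → Option Kbar)
    (hcv : MainCusp12.CuspExports n e M cv) (K : IntermediateField ℚ Qbar)
    (hKfd : FiniteDimensional ℚ K) (hζ : zetaK M ∈ K) (ϖ : ↥(AK A K)) (hϖ : Irreducible ϖ)
    (t : ↥(FK M K)) (htq : (t : LaurentSeries K) = tq ↥K n e) :
    SmoothOff (AK A K) (FK M K) ϖ t (cuspSet A K cv) := by
  have hℓ : ℓ.Prime := Fact.out
  have hB := Main12.baseExports hb M hnM
  have hdvr : IsDiscreteValuationRing ↥(AK A K) := isDiscreteValuationRing_AK A K hℓ.ne_zero hA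
  have hchar : CharP (Res (AK A K)) ℓ := charP_residueField_AK A K hℓ hA
  have hfinres : Finite (Res (AK A K)) := finite_residueField_AK A K hℓ.ne_zero hA
  have hE : FK M K ≤ fracField (AK A K) :=
    Fermat.Agent.RED.PUR.GaussBridge10.FK_le_fracField A K M
  have ht : ((t : ↥(FK M K)) : LaurentSeries K) ∈ gaussRing (AK A K) := by
    rw [htq]; exact tq_mem_gaussRing (AK A K) n e
  have htr : Transcendental (Res (AK A K))
      (gaussRed (AK A K) ⟨((t : ↥(FK M K)) : LaurentSeries K), ht⟩) := by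
    have h1 : (⟨((t : ↥(FK M K)) : LaurentSeries K), ht⟩ : gaussRing (AK A K)) =
        ⟨tq K n e, tq_mem_gaussRing (AK A K) n e⟩ := Subtype.ext htq
    rw [h1]
    exact transcendental_gaussRed_tq (AK A K) n e
  have hjt : jqModC K ∈ Kt (AK A K) ⟨((t : ↥(FK M K)) : LaurentSeries K), ht⟩ := by
    show jqModC K ∈ IntermediateField.adjoin K {((t : ↥(FK M K)) : LaurentSeries K)}
    rw [htq]
    exact Descent.jq_mem_adjoin n e hB.genBase K
  have htE' : ((t : ↥(FK M K)) : LaurentSeries K) ∈ FK M K := t.2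
  obtain ⟨nn, -, hdeg, hirr⟩ := Fermat.Agent.RED.PUR.GaussInst25.exists_degLe_irr_FK A K hϖ ℓ M hℓM
    ⟨((t : ↥(FK M K)) : LaurentSeries K), ht⟩ htE' hjt
  have hn : relfinrank (Kt (AK A K) ⟨((t : ↥(FK M K)) : LaurentSeries K), ht⟩) (FK M K) ≠ 0 :=
    Fermat.Agent.RED.ModelMain4.relfinrank_ne_zero (AK A K) M _ htE' hjt
  have hfd : FiniteDimensional ↥(IntermediateField.adjoin K {t}) ↥(FK M K) :=
    Fermat.Agent.RED.ModelAsm4.finiteDimensional_adjoin t hn
  have htrK : Transcendental K t :=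
    Fermat.Agent.RED.ModelAsm4.transcendental_of_coe t
      (transcendental_t (tG := ⟨((t : ↥(FK M K)) : LaurentSeries K), ht⟩) hϖ htr)
  have hord := Fermat.Agent.RED.PUR.TqOrder26.isCoprime_order_gaussRed (AK A K) n e t ht htq (ℓ : ℤ)
  exact smoothOff_of_hunrOff hϖ hE t ht htr hdeg hirr ℓ hord htrK (cuspSet A K cv)
    (HorizOff.hunrOff_of_zeta hb hnM hℓM hA cv hcv K hKfd hζ ϖ hϖ t htq)

/-- **CUSP over `K ∋ ζ_M`, finite cusp values**: (LOC) at the closed points over `t = c`. -/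
theorem smoothOver_of_zeta (hb : BaseHyp n e) (hnM : n ∣ M) {ℓ : ℕ} [Fact ℓ.Prime]
    (hℓM : ¬ ℓ ∣ M) (hA : A.LiesOverPrime ℓ) (cv : SL(2, ℤ) → Option Kbar)
    (hcv : MainCusp12.CuspExports n e M cv) (K : IntermediateField ℚ Qbar)
    (hKfd : FiniteDimensional ℚ K) (hζ : zetaK M ∈ K) (ϖ : ↥(AK A K)) (hϖ : Irreducible ϖ)
    (t : ↥(FK M K)) (htq : (t : LaurentSeries K) = tq ↥K n e)
    (c : ↥(AK A K)) (hc : c ∈ cuspSet A K cv) :
    SmoothOver (AK A K) (FK M K) ϖ t c := by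
  have hℓ : ℓ.Prime := Fact.out
  have hB := Main12.baseExports hb M hnM
  have hdvr : IsDiscreteValuationRing ↥(AK A K) := isDiscreteValuationRing_AK A K hℓ.ne_zero hA
  have hchar : CharP (Res (AK A K)) ℓ := charP_residueField_AK A K hℓ hA
  have hfinres : Finite (Res (AK A K)) := finite_residueField_AK A K hℓ.ne_zero hA
  have hE : FK M K ≤ fracField (AK A K) :=
    Fermat.Agent.RED.PUR.GaussBridge10.FK_le_fracField A K M
  have ht : ((t : ↥(FK M K)) : LaurentSeries K) ∈ gaussRing (AK A K) := by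
    rw [htq]; exact tq_mem_gaussRing (AK A K) n e
  have htr : Transcendental (Res (AK A K))
      (gaussRed (AK A K) ⟨((t : ↥(FK M K)) : LaurentSeries K), ht⟩) := by
    have h1 : (⟨((t : ↥(FK M K)) : LaurentSeries K), ht⟩ : gaussRing (AK A K)) =
        ⟨tq K n e, tq_mem_gaussRing (AK A K) n e⟩ := Subtype.ext htq
    rw [h1]
    exact transcendental_gaussRed_tq (AK A K) n e
  have hJ : jqModC K ∈ IntermediateField.adjoin K {tq ↥K n e} :=
    Descent.jq_mem_adjoin n e hB.genBase K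
  have hjt : jqModC K ∈ Kt (AK A K) ⟨((t : ↥(FK M K)) : LaurentSeries K), ht⟩ := by
    show jqModC K ∈ IntermediateField.adjoin K {((t : ↥(FK M K)) : LaurentSeries K)}
    rw [htq]
    exact hJ
  have htE' : ((t : ↥(FK M K)) : LaurentSeries K) ∈ FK M K := t.2
  obtain ⟨nn, -, hdeg, hirr⟩ := Fermat.Agent.RED.PUR.GaussInst25.exists_degLe_irr_FK A K hϖ ℓ M hℓM
    ⟨((t : ↥(FK M K)) : LaurentSeries K), ht⟩ htE' hjt
  have hn : relfinrank (Kt (AK A K) ⟨((t : ↥(FK M K)) : LaurentSeries K), ht⟩) (FK M K) ≠ 0 :=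
    Fermat.Agent.RED.ModelMain4.relfinrank_ne_zero (AK A K) M _ htE' hjt
  have hfd : FiniteDimensional ↥(IntermediateField.adjoin K {t}) ↥(FK M K) :=
    Fermat.Agent.RED.ModelAsm4.finiteDimensional_adjoin t hn
  have htrK : Transcendental K t :=
    Fermat.Agent.RED.ModelAsm4.transcendental_of_coe t
      (transcendental_t (tG := ⟨((t : ↥(FK M K)) : LaurentSeries K), ht⟩) hϖ htr)
  have hord := Fermat.Agent.RED.PUR.TqOrder26.isCoprime_order_gaussRed (AK A K) n e t ht htq (ℓ : ℤ)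
  have hMA : ((M : Qbar))⁻¹ ∈ A := inv_natCast_mem hℓ hA M hℓM
  have hembt : baseChangeHom M K t = tF M hB.mem :=
    RankConcrete16.baseChangeHom_eq_tF M K hB.mem t htq
  have hH := HorizCusp.hunrCusp_of_zeta hb hnM hℓM hA cv hcv K hKfd hζ ϖ hϖ t htq c hc
  obtain ⟨γ₀, hγ₀⟩ := hc
  have hfam := CuspConcrete23.hasCuspFamily_some A hb hnM cv hcv.cuspExp hB.mem hζ hMA t hembt c γ₀
    hγ₀
  rw [← RankConcrete16.finrank_adjoin_tF M K hB.mem t htq hJ] at hfam
  exact smoothOver_of_family hϖ hE t ht htr hdeg hirr ℓ hord htrK c hfam hH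

/-- **CUSP over `K ∋ ζ_M`, at infinity**: (LOC) at the closed points `t⁻¹ = 0` of the chart `t⁻¹`. -/
theorem smoothInf_of_zeta (hb : BaseHyp n e) (hnM : n ∣ M) {ℓ : ℕ} [Fact ℓ.Prime]
    (hℓM : ¬ ℓ ∣ M) (hA : A.LiesOverPrime ℓ) (cv : SL(2, ℤ) → Option Kbar)
    (hcv : MainCusp12.CuspExports n e M cv) (K : IntermediateField ℚ Qbar)
    (hKfd : FiniteDimensional ℚ K) (hζ : zetaK M ∈ K) (ϖ : ↥(AK A K)) (hϖ : Irreducible ϖ)
    (t : ↥(FK M K)) (htq : (t : LaurentSeries K) = tq ↥K n e) :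
    SmoothOver (AK A K) (FK M K) ϖ t⁻¹ 0 := by
  have hℓ : ℓ.Prime := Fact.out
  have hB := Main12.baseExports hb M hnM
  have hdvr : IsDiscreteValuationRing ↥(AK A K) := isDiscreteValuationRing_AK A K hℓ.ne_zero hA
  have hchar : CharP (Res (AK A K)) ℓ := charP_residueField_AK A K hℓ hA
  have hfinres : Finite (Res (AK A K)) := finite_residueField_AK A K hℓ.ne_zero hA
  have hE : FK M K ≤ fracField (AK A K) :=
    Fermat.Agent.RED.PUR.GaussBridge10.FK_le_fracField A K M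
  have ht : ((t : ↥(FK M K)) : LaurentSeries K) ∈ gaussRing (AK A K) := by
    rw [htq]; exact tq_mem_gaussRing (AK A K) n e
  have htr : Transcendental (Res (AK A K))
      (gaussRed (AK A K) ⟨((t : ↥(FK M K)) : LaurentSeries K), ht⟩) := by
    have h1 : (⟨((t : ↥(FK M K)) : LaurentSeries K), ht⟩ : gaussRing (AK A K)) =
        ⟨tq K n e, tq_mem_gaussRing (AK A K) n e⟩ := Subtype.ext htq
    rw [h1]
    exact transcendental_gaussRed_tq (AK A K) n e
  have hJ : jqModC K ∈ IntermediateField.adjoin K {tq ↥K n e} :=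
    Descent.jq_mem_adjoin n e hB.genBase K
  have hjt : jqModC K ∈ Kt (AK A K) ⟨((t : ↥(FK M K)) : LaurentSeries K), ht⟩ := by
    show jqModC K ∈ IntermediateField.adjoin K {((t : ↥(FK M K)) : LaurentSeries K)}
    rw [htq]
    exact hJ
  have htE' : ((t : ↥(FK M K)) : LaurentSeries K) ∈ FK M K := t.2
  obtain ⟨nn, -, hdeg, hirr⟩ := Fermat.Agent.RED.PUR.GaussInst25.exists_degLe_irr_FK A K hϖ ℓ M hℓM
    ⟨((t : ↥(FK M K)) : LaurentSeries K), ht⟩ htE' hjt
  have hn : relfinrank (Kt (AK A K) ⟨((t : ↥(FK M K)) : LaurentSeries K), ht⟩) (FK M K) ≠ 0 :=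
    Fermat.Agent.RED.ModelMain4.relfinrank_ne_zero (AK A K) M _ htE' hjt
  have hfd : FiniteDimensional ↥(IntermediateField.adjoin K {t}) ↥(FK M K) :=
    Fermat.Agent.RED.ModelAsm4.finiteDimensional_adjoin t hn
  have htrK : Transcendental K t :=
    Fermat.Agent.RED.ModelAsm4.transcendental_of_coe t
      (transcendental_t (tG := ⟨((t : ↥(FK M K)) : LaurentSeries K), ht⟩) hϖ htr)
  -- the inverse coordinate
  have hcoe : (((t⁻¹ : ↥(FK M K)) : ↥(FK M K)) : LaurentSeries K) =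
      ((t : ↥(FK M K)) : LaurentSeries K)⁻¹ := rfl
  have hs : (((t⁻¹ : ↥(FK M K)) : ↥(FK M K)) : LaurentSeries K) ∈ gaussRing (AK A K) := by
    rw [hcoe]
    exact Fermat.Agent.RED.PUR.GaussInv8.inv_mem_gaussRing
      (⟨((t : ↥(FK M K)) : LaurentSeries K), ht⟩ : gaussRing (AK A K)) htr
  have htrs := Fermat.Agent.RED.PUR.GaussInv8.transcendental_gaussRed
    (⟨((t : ↥(FK M K)) : LaurentSeries K), ht⟩ : gaussRing (AK A K))
    (⟨(((t⁻¹ : ↥(FK M K)) : ↥(FK M K)) : LaurentSeries K), hs⟩ : gaussRing (AK A K)) hcoe htr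
  have hdegs := Fermat.Agent.RED.PUR.GaussInv8.degLe_of_inv
    (⟨((t : ↥(FK M K)) : LaurentSeries K), ht⟩ : gaussRing (AK A K))
    (⟨(((t⁻¹ : ↥(FK M K)) : ↥(FK M K)) : LaurentSeries K), hs⟩ : gaussRing (AK A K)) hcoe
    (FK M K) hdeg
  have hirrs := Fermat.Agent.RED.PUR.GaussInv8.irr_of_inv
    (⟨((t : ↥(FK M K)) : LaurentSeries K), ht⟩ : gaussRing (AK A K))
    (⟨(((t⁻¹ : ↥(FK M K)) : ↥(FK M K)) : LaurentSeries K), hs⟩ : gaussRing (AK A K)) hcoe htr
    (FK M K) hirr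
  have hsq : (((t⁻¹ : ↥(FK M K)) : ↥(FK M K)) : LaurentSeries K) = (tq K n e)⁻¹ := by
    rw [hcoe, htq]
  have hords := Fermat.Agent.RED.PUR.TqOrder26.isCoprime_order_gaussRed_inv (AK A K) n e
    (t⁻¹ : ↥(FK M K)) hs hsq (ℓ : ℤ)
  have htrKs : Transcendental K (t⁻¹ : ↥(FK M K)) := fun hal => htrK (IsAlgebraic.inv_iff.1 hal)
  have hEE : IntermediateField.adjoin K {t} = IntermediateField.adjoin K {(t⁻¹ : ↥(FK M K))} :=
    (RankConcrete16.adjoin_inv_eq (k := ↥K) t).symm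
  have hfds : FiniteDimensional ↥(IntermediateField.adjoin K {(t⁻¹ : ↥(FK M K))}) ↥(FK M K) :=
    hEE ▸ hfd
  have hMA : ((M : Qbar))⁻¹ ∈ A := inv_natCast_mem hℓ hA M hℓM
  have hembt : baseChangeHom M K t = tF M hB.mem :=
    RankConcrete16.baseChangeHom_eq_tF M K hB.mem t htq
  have hfam := CuspConcrete23.hasCuspFamily_none A hb hnM cv hcv.cuspExp hB.mem hζ hMA t hembt
  rw [← RankConcrete16.finrank_adjoin_inv_tF M K hB.mem t htq hJ] at hfam
  exact smoothOver_of_family hϖ hE (t⁻¹ : ↥(FK M K)) hs htrs hdegs hirrs ℓ hords htrKs 0 hfam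
    (HorizCusp.hunrCuspInv_of_zeta hb hnM hℓM hA cv hcv K hKfd hζ ϖ hϖ t htq)

end Fermat.Agent.T1.ModelUnr4.Targets
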