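/-
Fermat/Agent/T1/ModelUnr4/Main.lean  (helper4, programme T1, brick MODEL-UNR)

**The smooth two-chart model of `K·F_M` over `A ∩ K` for EVERY number field `K ∋ ζ_M`.**

`RED/S18Exports4.modelStep_aux` gives the model only over `A ∩ K` for `K ⊇ K₀`, `K₀` an unspecified
(possibly ramified) number field.  Here `K₀ = ℚ(ζ_M)` explicitly; since `ℓ ∤ M`, `ℚ(ζ_M)` and every
unramified extension of it is allowed: the model exists over UNRAMIFIED discrete valuation rings.

* `hasModel_of_zeta_gen` : `(n, e)` with `BaseHyp n e`, `n ∣ M`, `ℓ ∤ M`, `ζ_M ∈ K` ⟹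
  `HasModel (AK A K) (FK M K)`;
* `twoChartModel_of_zeta_gen` : the same with the model made explicit (`t = tq K n e`, charts
  `chart (AK A K) t`, `chart (AK A K) t⁻¹`, Gauss valuation ring);
* `hasModel_of_zeta` : at the auxiliary level `M = auxLevel ℓ N` (`ℓ ∤ N`).
-/
import Fermat.Agent.T1.ModelUnr4.Targets

set_option autoImplicit false
set_option linter.unusedSectionVars false
set_option linter.unusedVariables false
set_option linter.style.haveILetI false

open HahnSeries ModularCurve IntermediateField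
open scoped MatrixGroups

noncomputable section

namespace Fermat.Agent.T1.ModelUnr4.Main

open Fermat.Agent.X0
open Fermat.Agent.RED.Interface4 Fermat.Agent.RED.InterfaceGe4 Fermat.Agent.RED.PUR.GaussGen8
  Fermat.Agent.RED.PUR.KtGauss8
  Fermat.Agent.RED.PUR.G1Package8 Fermat.Agent.RED.ModelIface4 Fermat.Agent.RED.ModelTargets4
  Fermat.Agent.RED.BASE.EtaQuot12 Fermat.Agent.RED.NumInst4
  Fermat.Agent.RED.NumMain4 Fermat.Agent.RED.DESC.NumberFieldDVR27
  Fermat.Agent.RED.BASE.Interface12 Fermat.Agent.RED.BASE.Hauptmodul12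
  Fermat.Agent.RED.BASE.MainCusp12
open Fermat.Agent.RED.BASE

variable {n e : ℕ} [NeZero n] {M : ℕ} [NeZero M] {A : ValuationSubring Qbar}

/-- **MODEL over `K ∋ ζ_M`**, general level. -/
theorem hasModel_of_zeta_gen (hb : BaseHyp n e) (hnM : n ∣ M) {ℓ : ℕ} [Fact ℓ.Prime]
    (hℓM : ¬ ℓ ∣ M) (hA : A.LiesOverPrime ℓ) (cv : SL(2, ℤ) → Option Kbar)
    (hcv : MainCusp12.CuspExports n e M cv) (K : IntermediateField ℚ Qbar)
    [FiniteDimensional ℚ K] (hζ : zetaK M ∈ K) : HasModel (AK A K) (FK M K) := by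
  have hℓ : ℓ.Prime := Fact.out
  have hB := Main12.baseExports hb M hnM
  have hdvr : IsDiscreteValuationRing ↥(AK A K) := isDiscreteValuationRing_AK A K hℓ.ne_zero hA
  obtain ⟨ϖ, hϖ⟩ := IsDiscreteValuationRing.exists_irreducible ↥(AK A K)
  have hchar : CharP (Res (AK A K)) ℓ := charP_residueField_AK A K hℓ hA
  have hfin : Finite (↥(AK A K) ⧸ (Ideal.span {ϖ} : Ideal ↥(AK A K))) := by
    have h1 : Finite (IsLocalRing.ResidueField ↥(AK A K)) :=
      finite_residueField_AK A K hℓ.ne_zero hA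
    rw [← hϖ.maximalIdeal_eq]
    exact h1
  have hE : FK M K ≤ fracField (AK A K) :=
    Fermat.Agent.RED.PUR.GaussBridge10.FK_le_fracField A K M
  have htE : tq K n e ∈ FK M K := Descent.tq_mem_FK n e hB.mem K
  let t : ↥(FK M K) := ⟨tq K n e, htE⟩
  have ht : ((t : ↥(FK M K)) : LaurentSeries K) ∈ gaussRing (AK A K) :=
    tq_mem_gaussRing (AK A K) n e
  have htr : Transcendental (Res (AK A K))
      (gaussRed (AK A K) ⟨((t : ↥(FK M K)) : LaurentSeries K), ht⟩) :=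
    transcendental_gaussRed_tq (AK A K) n e
  have hjt : jqModC K ∈ Kt (AK A K) ⟨((t : ↥(FK M K)) : LaurentSeries K), ht⟩ :=
    Descent.jq_mem_adjoin n e hB.genBase K
  obtain ⟨nn, -, hdeg, hirr⟩ := Fermat.Agent.RED.PUR.GaussInst25.exists_degLe_irr_FK A K hϖ ℓ M hℓM
    ⟨((t : ↥(FK M K)) : LaurentSeries K), ht⟩ htE hjt
  have hn : relfinrank (Kt (AK A K) ⟨((t : ↥(FK M K)) : LaurentSeries K), ht⟩) (FK M K) ≠ 0 :=
    Fermat.Agent.RED.ModelMain4.relfinrank_ne_zero (AK A K) M _ htE hjt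
  exact hasModel_of_split hϖ hE t ht htr hn hdeg hirr (cuspSet A K cv)
    (Targets.smoothOff_of_zeta hb hnM hℓM hA cv hcv K inferInstance hζ ϖ hϖ t rfl)
    (fun c hc => Targets.smoothOver_of_zeta hb hnM hℓM hA cv hcv K inferInstance hζ ϖ hϖ t rfl c hc)
    (Targets.smoothInf_of_zeta hb hnM hℓM hA cv hcv K inferInstance hζ ϖ hϖ t rfl)

/-- **MODEL over `K ∋ ζ_M` at the auxiliary level** `M = auxLevel ℓ N` (`= lcm N 4` for odd `ℓ`,
`lcm N 9` for `ℓ = 2`).  Since `ℓ ∤ M`, every `K ⊇ ℚ(ζ_M)` unramified at `ℓ` qualifies. -/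
theorem hasModel_of_zeta (N : ℕ) [NeZero N] (ℓ : ℕ) [Fact ℓ.Prime] (hℓN : ¬ ℓ ∣ N)
    (A : ValuationSubring Qbar) (hA : A.LiesOverPrime ℓ) [NeZero (auxLevel ℓ N)]
    (K : IntermediateField ℚ Qbar) [FiniteDimensional ℚ K] (hζ : zetaK (auxLevel ℓ N) ∈ K) :
    HasModel (AK A K) (FK (auxLevel ℓ N) K) := by
  have hℓ : ℓ.Prime := Fact.out
  have hM : ¬ ℓ ∣ auxLevel ℓ N := not_dvd_auxLevel hℓ hℓN
  by_cases h2 : ℓ = 2
  · have haux : auxLevel ℓ N = Nat.lcm N 9 := by
      unfold auxLevel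
      rw [if_pos h2]
    have hd : 9 ∣ auxLevel ℓ N := haux ▸ Nat.dvd_lcm_right N 9
    have hB := base_nine (auxLevel ℓ N) hd
    exact hasModel_of_zeta_gen baseHyp_nine hd hM hA _ hB.2 K hζ
  · have haux : auxLevel ℓ N = Nat.lcm N 4 := by
      unfold auxLevel
      rw [if_neg h2]
    have hd : 4 ∣ auxLevel ℓ N := haux ▸ Nat.dvd_lcm_right N 4
    have hB := base_four (auxLevel ℓ N) hd
    exact hasModel_of_zeta_gen baseHyp_four hd hM hA _ hB.2 K hζ

end Fermat.Agent.T1.ModelUnr4.Main
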