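/-
Fermat/Agent/T1/ModelUnr4/Explicit.lean  (helper4, programme T1, brick G0 MODEL-UNR)

EXPLICIT form of the model of `Main.lean`: the parameter is `t = tq K n e`, the charts are
`chart (AK A K) t`, `chart (AK A K) t⁻¹` (integral closures of `(A ∩ K)[t^{±1}]` inside `K·F_M`),
the valuation ring is the Gauss valuation ring.  Also the facts that `TwoChartModel` forgets:
`t` transcendental over `K`, `[K·F_M : K(t)] < ∞`, and finiteness of the SECOND chart over
`(A ∩ K)[t⁻¹]` (the field `fin1` missing from `TwoChartModel`).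
-/
import Fermat.Agent.T1.ModelUnr4.Main

set_option autoImplicit false
set_option linter.unusedSectionVars false
set_option linter.unusedVariables false
set_option linter.style.haveILetI false

open HahnSeries ModularCurve IntermediateField Polynomial
open scoped MatrixGroups

noncomputable section

namespace Fermat.Agent.T1.ModelUnr4.Explicit

open Fermat.Agent.RED.CORE.CoreIface24 Fermat.Agent.RED.PUR.GaussGen8
  Fermat.Agent.RED.PUR.KtGauss8 Fermat.Agent.RED.PUR.G1Package8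
  Fermat.Agent.RED.PUR.ChartGeneric22 Fermat.Agent.RED.NumInst4
  Fermat.Agent.RED.ModelAsm4 Fermat.Agent.RED.ChartTransfer3 Fermat.Agent.RED.ModelIface4

section Generic

variable {K : Type*} [Field K] [CharZero K] {O : ValuationSubring K} [IsDiscreteValuationRing ↥O]
  {E : IntermediateField K (LaurentSeries K)}

/-- The explicit two-chart model from (DEG)+(IRR)+(LOC) on both charts
(`ModelAsm4.hasModel_of_g1` without the existential quantifiers). -/
theorem twoChartModel_of_g1 {π : ↥O} (hπ : Irreducible π) (hE : E ≤ fracField O) (t : ↥E)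
    (ht : (t : LaurentSeries K) ∈ gaussRing O)
    (htr : Transcendental (Res O) (gaussRed O ⟨(t : LaurentSeries K), ht⟩))
    {n : ℕ} (hn : relfinrank (Kt O ⟨(t : LaurentSeries K), ht⟩) E ≠ 0)
    (hdeg : DegLe O E ⟨(t : LaurentSeries K), ht⟩ n)
    (hirr : Irr O E ⟨(t : LaurentSeries K), ht⟩ n)
    (hsm0 : SmoothChart O E π t) (hsm1 : SmoothChart O E π t⁻¹) :
    TwoChartModel ↥O K ↥E π t (chart ↥O t) (chart ↥O t⁻¹)
      (gaussVS (isUnif_of_irreducible O hπ) E hE) := by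
  have : IsScalarTower ↥O K ↥E := isScalarTower_OE O E
  have : FiniteDimensional ↥(IntermediateField.adjoin K {t}) ↥E := finiteDimensional_adjoin t hn
  have htrK : Transcendental K t :=
    transcendental_of_coe t (transcendental_t (tG := ⟨(t : LaurentSeries K), ht⟩) hπ htr)
  refine twoChartModel_of (R := ↥O) (K := K) (F := ↥E) (π := π) (t := t) (OvE O hπ E hE) htrK
    (dvr_factor hπ) ?_ (t_mem hπ hE t ht) (t_inv_mem hπ hE t ht htr)
    (algebraMap_pi_ne_zero hπ) (pi_inv_not_mem hπ hE)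
    (fun x hx hxi => exists_eq_pi_mul hπ hE hx hxi) ?_ ?_ hsm0 hsm1
  · intro r
    exact (mem_OvE_iff O hπ E hE _).mpr (algebraMap_O_mem r)
  · intro b hb c hc hbc
    rw [mem_chart_iff] at hb ⊢
    exact isIntegral_of_mul hπ hE t ht htr hdeg hirr hc (hbc ▸ hb)
  · intro b hb c hc hbc
    rw [mem_chart_iff] at hb ⊢
    exact isIntegral_of_mul_inv hπ hE t ht htr hdeg hirr hc (hbc ▸ hb)

/-- The explicit two-chart model from the split (LOC) (`ModelIface4.hasModel_of_split` without the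
existential quantifiers). -/
theorem twoChartModel_of_split {π : ↥O} (hπ : Irreducible π)
    [Finite (↥O ⧸ (Ideal.span {π} : Ideal ↥O))] (hE : E ≤ fracField O) (t : ↥E)
    (ht : (t : LaurentSeries K) ∈ gaussRing O)
    (htr : Transcendental (Res O) (gaussRed O ⟨(t : LaurentSeries K), ht⟩))
    {n : ℕ} (hn : relfinrank (Kt O ⟨(t : LaurentSeries K), ht⟩) E ≠ 0)
    (hdeg : DegLe O E ⟨(t : LaurentSeries K), ht⟩ n)
    (hirr : Irr O E ⟨(t : LaurentSeries K), ht⟩ n)
    (S : Set ↥O) (hoff : SmoothOff O E π t S) (hover : ∀ c ∈ S, SmoothOver O E π t c)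
    (hinf : SmoothOver O E π t⁻¹ 0) :
    TwoChartModel ↥O K ↥E π t (chart ↥O t) (chart ↥O t⁻¹)
      (gaussVS (isUnif_of_irreducible O hπ) E hE) := by
  have hfd : FiniteDimensional ↥(IntermediateField.adjoin K {t}) ↥E := finiteDimensional_adjoin t hn
  have htrK : Transcendental K t :=
    transcendental_of_coe t (transcendental_t (tG := ⟨(t : LaurentSeries K), ht⟩) hπ htr)
  have h0 : SmoothChart O E π t := smoothChart_of_split hoff hover
  exact twoChartModel_of_g1 hπ hE t ht htr hn hdeg hirr h0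
    (smoothChart_inv_of_split hπ htrK h0 hinf)

/-- **The explicit model package**: the two-chart model with charts `chart O t`, `chart O t⁻¹`
(integral closures of `O[t]`, `O[t⁻¹]` in `E`) and the Gauss valuation ring, together with what
`TwoChartModel` forgets: `t` is transcendental over `K`, `E / K(t)` is finite, and BOTH charts are
finite over `O[t]`, `O[t⁻¹]` with explicit generators. -/
structure ExplicitModel (O : ValuationSubring K) (E : IntermediateField K (LaurentSeries K))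
    (π : ↥O) (hu : IsUnif O π) (hE : E ≤ fracField O) (t : ↥E) : Prop where
  model : TwoChartModel ↥O K ↥E π t (chart ↥O t) (chart ↥O t⁻¹) (gaussVS hu E hE)
  transc : Transcendental K t
  finite : FiniteDimensional ↥(IntermediateField.adjoin K {t}) ↥E
  fin0 : ∃ (r : ℕ) (b : Fin r → ↥E), (∀ i, b i ∈ chart ↥O t) ∧
      ∀ x ∈ chart ↥O t, ∃ P : Fin r → (↥O)[X], x = ∑ i, aeval t (P i) * b i
  fin1 : ∃ (r : ℕ) (b : Fin r → ↥E), (∀ i, b i ∈ chart ↥O t⁻¹) ∧
      ∀ x ∈ chart ↥O t⁻¹, ∃ P : Fin r → (↥O)[X], x = ∑ i, aeval t⁻¹ (P i) * b i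

/-- The explicit model package from the split (LOC). -/
theorem explicitModel_of_split {π : ↥O} (hπ : Irreducible π)
    [Finite (↥O ⧸ (Ideal.span {π} : Ideal ↥O))] (hu : IsUnif O π) (hE : E ≤ fracField O) (t : ↥E)
    (ht : (t : LaurentSeries K) ∈ gaussRing O)
    (htr : Transcendental (Res O) (gaussRed O ⟨(t : LaurentSeries K), ht⟩))
    {n : ℕ} (hn : relfinrank (Kt O ⟨(t : LaurentSeries K), ht⟩) E ≠ 0)
    (hdeg : DegLe O E ⟨(t : LaurentSeries K), ht⟩ n)
    (hirr : Irr O E ⟨(t : LaurentSeries K), ht⟩ n)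
    (S : Set ↥O) (hoff : SmoothOff O E π t S) (hover : ∀ c ∈ S, SmoothOver O E π t c)
    (hinf : SmoothOver O E π t⁻¹ 0) : ExplicitModel O E π hu hE t := by
  have : IsScalarTower ↥O K ↥E := isScalarTower_OE O E
  have hfd : FiniteDimensional ↥(IntermediateField.adjoin K {t}) ↥E := finiteDimensional_adjoin t hn
  have htrK : Transcendental K t :=
    transcendental_of_coe t (transcendental_t (tG := ⟨(t : LaurentSeries K), ht⟩) hπ htr)
  have hmem : t ∈ IntermediateField.adjoin K {t} := IntermediateField.mem_adjoin_simple_self K t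
  have hinv_mem : t⁻¹ ∈ IntermediateField.adjoin K {t} := inv_mem hmem
  have hE' : IntermediateField.adjoin K {t} ≤ IntermediateField.adjoin K {t⁻¹} := by
    rw [IntermediateField.adjoin_le_iff, Set.singleton_subset_iff]
    have h1 : t⁻¹ ∈ IntermediateField.adjoin K {t⁻¹} :=
      IntermediateField.mem_adjoin_simple_self K t⁻¹
    have h2 := inv_mem h1
    rwa [inv_inv] at h2
  have htr' : Transcendental K t⁻¹ := fun h => htrK (IsAlgebraic.inv_iff.1 h)
  obtain ⟨-, -, hg0⟩ := chart_facts (R := ↥O) (IntermediateField.adjoin K {t}) hmem le_rfl htrK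
  obtain ⟨-, -, hg1⟩ := chart_facts (R := ↥O) (IntermediateField.adjoin K {t}) hinv_mem hE' htr'
  exact ⟨twoChartModel_of_split hπ hE t ht htr hn hdeg hirr S hoff hover hinf, htrK, hfd, hg0, hg1⟩

end Generic

section Concrete

open Fermat.Agent.X0
open Fermat.Agent.RED.Interface4 Fermat.Agent.RED.InterfaceGe4
  Fermat.Agent.RED.ModelTargets4
  Fermat.Agent.RED.BASE.EtaQuot12
  Fermat.Agent.RED.NumMain4 Fermat.Agent.RED.DESC.NumberFieldDVR27
  Fermat.Agent.RED.BASE.Interface12 Fermat.Agent.RED.BASE.Hauptmodul12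
  Fermat.Agent.RED.BASE.MainCusp12
open Fermat.Agent.RED.BASE

variable {n e : ℕ} [NeZero n] {M : ℕ} [NeZero M] {A : ValuationSubring Qbar}

/-- every irreducible of `A ∩ K` is a uniformiser in the sense of `GaussGen8.IsUnif`. -/
theorem isUnif_AK {ℓ : ℕ} [Fact ℓ.Prime] (hA : A.LiesOverPrime ℓ) (K : IntermediateField ℚ Qbar)
    [FiniteDimensional ℚ K] {ϖ : ↥(AK A K)} (hϖ : Irreducible ϖ) : IsUnif (AK A K) ϖ := by
  have hℓ : ℓ.Prime := Fact.out
  have hdvr : IsDiscreteValuationRing ↥(AK A K) := isDiscreteValuationRing_AK A K hℓ.ne_zero hA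
  exact isUnif_of_irreducible (AK A K) hϖ

/-- `K·F_M ⊂ Frac (A ∩ K)((q))` (restatement of `GaussBridge10.FK_le_fracField`). -/
theorem FK_le_fracField_AK (A : ValuationSubring Qbar) (K : IntermediateField ℚ Qbar) (M : ℕ)
    [NeZero M] : FK M K ≤ fracField (AK A K) :=
  Fermat.Agent.RED.PUR.GaussBridge10.FK_le_fracField A K M

/-- the Hauptmodul lies in `K·F_M` for every `K`. -/
theorem tq_mem_FK_of_baseHyp (hb : BaseHyp n e) (hnM : n ∣ M) (K : IntermediateField ℚ Qbar) :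
    tq K n e ∈ FK M K :=
  Descent.tq_mem_FK n e (Main12.baseExports hb M hnM).mem K

/-- **The explicit model over `K ∋ ζ_M`.**  For every irreducible `ϖ` of `A ∩ K`:
`t = tq K n e ∈ K·F_M`, charts = integral closures of `(A ∩ K)[t^{±1}]` in `K·F_M`,
`Ov` = the Gauss valuation ring; plus the extras of `ExplicitModel`. -/
theorem explicitModel_of_zeta_gen (hb : BaseHyp n e) (hnM : n ∣ M) {ℓ : ℕ} [Fact ℓ.Prime]
    (hℓM : ¬ ℓ ∣ M) (hA : A.LiesOverPrime ℓ) (cv : SL(2, ℤ) → Option Kbar)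
    (hcv : MainCusp12.CuspExports n e M cv) (K : IntermediateField ℚ Qbar)
    [FiniteDimensional ℚ K] (hζ : zetaK M ∈ K)
    (htE : tq K n e ∈ FK M K) (hE : FK M K ≤ fracField (AK A K))
    (ϖ : ↥(AK A K)) (hϖ : Irreducible ϖ) (hu : IsUnif (AK A K) ϖ) :
    ExplicitModel (AK A K) (FK M K) ϖ hu hE ⟨tq K n e, htE⟩ := by
  have hℓ : ℓ.Prime := Fact.out
  have hB := Main12.baseExports hb M hnM
  have hdvr : IsDiscreteValuationRing ↥(AK A K) := isDiscreteValuationRing_AK A K hℓ.ne_zero hA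
  have hchar : CharP (Res (AK A K)) ℓ := charP_residueField_AK A K hℓ hA
  have hfin : Finite (↥(AK A K) ⧸ (Ideal.span {ϖ} : Ideal ↥(AK A K))) := by
    have h1 : Finite (IsLocalRing.ResidueField ↥(AK A K)) :=
      finite_residueField_AK A K hℓ.ne_zero hA
    rw [← hϖ.maximalIdeal_eq]
    exact h1
  let t : ↥(FK M K) := ⟨tq K n e, htE⟩
  have ht : ((t : ↥(FK M K)) : LaurentSeries K) ∈ gaussRing (AK A K) :=
    tq_mem_gaussRing (AK A K) n e
  have htr : Transcendental (Res (AK A K))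
      (gaussRed (AK A K) ⟨((t : ↥(FK M K)) : LaurentSeries K), ht⟩) :=
    transcendental_gaussRed_tq (AK A K) n e
  have hjt : jqModC K ∈ Kt (AK A K) ⟨((t : ↥(FK M K)) : LaurentSeries K), ht⟩ :=
    Descent.jq_mem_adjoin n e hB.genBase K
  obtain ⟨nn, -, hdeg, hirr⟩ := Fermat.Agent.RED.PUR.GaussInst25.exists_degLe_irr_FK A K hϖ ℓ M hℓM
    ⟨((t : ↥(FK M K)) : LaurentSeries K), ht⟩ htE hjt
  have hn : relfinrank (Kt (AK A K) ⟨((t : ↥(FK M K)) : LaurentSeries K), ht⟩) (FK M K) ≠ 0 :=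
    Fermat.Agent.RED.ModelMain4.relfinrank_ne_zero (AK A K) M _ htE hjt
  exact explicitModel_of_split hϖ hu hE t ht htr hn hdeg hirr (cuspSet A K cv)
    (Targets.smoothOff_of_zeta hb hnM hℓM hA cv hcv K inferInstance hζ ϖ hϖ t rfl)
    (fun c hc => Targets.smoothOver_of_zeta hb hnM hℓM hA cv hcv K inferInstance hζ ϖ hϖ t rfl c hc)
    (Targets.smoothInf_of_zeta hb hnM hℓM hA cv hcv K inferInstance hζ ϖ hϖ t rfl)

/-- **The explicit model, `ℓ` odd**: `4 ∣ M`, `ℓ ∤ M`, Hauptmodul `t = tq K 4 8 = (η(τ)/η(4τ))^8`. -/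
theorem explicitModel_four (hd : 4 ∣ M) {ℓ : ℕ} [Fact ℓ.Prime] (hℓM : ¬ ℓ ∣ M)
    (hA : A.LiesOverPrime ℓ) (K : IntermediateField ℚ Qbar) [FiniteDimensional ℚ K]
    (hζ : zetaK M ∈ K) (ϖ : ↥(AK A K)) (hϖ : Irreducible ϖ) :
    ExplicitModel (AK A K) (FK M K) ϖ (isUnif_AK hA K hϖ) (FK_le_fracField_AK A K M)
      ⟨tq K 4 8, tq_mem_FK_of_baseHyp baseHyp_four hd K⟩ :=
  explicitModel_of_zeta_gen baseHyp_four hd hℓM hA _ (base_four M hd).2 K hζ _ _ ϖ hϖ _

/-- **The explicit model, `ℓ = 2`** (or any `ℓ ≠ 3`): `9 ∣ M`, `ℓ ∤ M`, Hauptmodul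
`t = tq K 9 3 = (η(τ)/η(9τ))^3`. -/
theorem explicitModel_nine (hd : 9 ∣ M) {ℓ : ℕ} [Fact ℓ.Prime] (hℓM : ¬ ℓ ∣ M)
    (hA : A.LiesOverPrime ℓ) (K : IntermediateField ℚ Qbar) [FiniteDimensional ℚ K]
    (hζ : zetaK M ∈ K) (ϖ : ↥(AK A K)) (hϖ : Irreducible ϖ) :
    ExplicitModel (AK A K) (FK M K) ϖ (isUnif_AK hA K hϖ) (FK_le_fracField_AK A K M)
      ⟨tq K 9 3, tq_mem_FK_of_baseHyp baseHyp_nine hd K⟩ :=
  explicitModel_of_zeta_gen baseHyp_nine hd hℓM hA _ (base_nine M hd).2 K hζ _ _ ϖ hϖ _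

end Concrete

end Fermat.Agent.T1.ModelUnr4.Explicit
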