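/-
Fermat/Agent/T1/ModelUnr4/CohAbs.lean  (helper4, programme T1, brick G1 MODEL-COH, abstract part)

Cohomological consequences of the contract `RED/CORE/CoreIface24.TwoChartModel R K F π t B0 B1 Ov`,
stated abstractly (elements of `F`, no quotient types):

* `algebraMap_mem_Ov`, `exists_of_algebraMap_mem_Ov` : `Ov ∩ K = R`;
* `h0_eq` : `H⁰ = B0 ∩ B1 = R` when `K` is algebraically closed in `F`;
* `SpecialH0` : the statement `H⁰(special fibre) = κ` (`b0 ∈ B0`, `b1 ∈ B1`, `b0 ≡ b1 mod π Ov`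
  ⟹ `b0 ≡ c mod π Ov` for some `c ∈ R`);
* `h1_torsionFree` : `SpecialH0` ⟹ `H¹ = B01 / (B0 + B1)` has no `π`-torsion
  (`x ∈ B01`, `π x ∈ B0 + B1` ⟹ `x ∈ B0 + B1`), and `h1_torsionFree_pow` for `π ^ k`.
-/
import Mathlib
import Fermat.Agent.RED.CORE.CoreIface24
import Fermat.Agent.RED.CORE.Constants18

set_option autoImplicit false
set_option linter.unusedSectionVars false
set_option linter.style.haveILetI false

namespace Fermat.Agent.T1.ModelUnr4.CohAbs

open Fermat.Agent.RED.CORE.CoreIface24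

variable {R K F : Type*} [CommRing R] [Field K] [Field F] [Algebra R K] [Algebra K F]
  [Algebra R F] [IsScalarTower R K F]
  {π : R} {t : F} {B0 B1 : Subalgebra R F} {Ov : ValuationSubring F}

/-- `R ⊂ Ov`. -/
theorem algebraMap_mem_Ov (M : TwoChartModel R K F π t B0 B1 Ov) (r : R) :
    algebraMap R F r ∈ Ov :=
  M.le_Ov0 _ (B0.algebraMap_mem r)

/-- negative powers of `π` are not in `Ov`. -/
theorem pi_pow_inv_not_mem (M : TwoChartModel R K F π t B0 B1 Ov) (k : ℕ) :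
    ((algebraMap R F π) ^ (k + 1))⁻¹ ∉ Ov := by
  intro h
  apply M.pi_nonunit
  have h1 : (algebraMap R F π)⁻¹ = (algebraMap R F π) ^ k * ((algebraMap R F π) ^ (k + 1))⁻¹ := by
    have hp := M.pi_ne
    field_simp
    ring
  rw [h1]
  exact Ov.mul_mem _ _ (pow_mem (algebraMap_mem_Ov M π) k) h

/-- `Ov ∩ K = R`. -/
theorem exists_of_algebraMap_mem_Ov (M : TwoChartModel R K F π t B0 B1 Ov) (c : K)
    (hc : algebraMap K F c ∈ Ov) : ∃ r : R, algebraMap R K r = c := by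
  haveI := M.fracR
  haveI : IsDomain R := (IsFractionRing.injective R K).isDomain
  obtain ⟨a, b, hb, rfl⟩ := IsFractionRing.div_surjective (A := R) c
  have hb0 : b ≠ 0 := nonZeroDivisors.ne_zero hb
  by_cases ha0 : a = 0
  · exact ⟨0, by simp [ha0]⟩
  obtain ⟨k, v, rfl⟩ := M.dvrR a ha0
  obtain ⟨j, w, rfl⟩ := M.dvrR b hb0
  have hπK : algebraMap R K π ≠ 0 := by
    intro h0
    apply M.pi_ne
    rw [IsScalarTower.algebraMap_apply R K F, h0, map_zero]
  have hwK : algebraMap R K (w : R) ≠ 0 := by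
    intro h0
    have h1 : algebraMap R K ((w : R) * ((w⁻¹ : Rˣ) : R)) = 0 := by rw [map_mul, h0, zero_mul]
    rw [Units.mul_inv, map_one] at h1
    exact one_ne_zero h1
  rcases le_or_gt j k with hjk | hjk
  · refine ⟨π ^ (k - j) * v * ((w⁻¹ : Rˣ) : R), ?_⟩
    have hw1 : algebraMap R K (w : R) * algebraMap R K ((w⁻¹ : Rˣ) : R) = 1 := by
      rw [← map_mul, Units.mul_inv, map_one]
    have hden : algebraMap R K (π ^ j * w) ≠ 0 := by
      rw [map_mul, map_pow]
      exact mul_ne_zero (pow_ne_zero _ hπK) hwK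
    rw [eq_div_iff hden]
    have hk : k = (k - j) + j := (Nat.sub_add_cancel hjk).symm
    calc algebraMap R K (π ^ (k - j) * v * ((w⁻¹ : Rˣ) : R)) * algebraMap R K (π ^ j * w)
        = algebraMap R K (π ^ ((k - j) + j) * v) *
            (algebraMap R K (w : R) * algebraMap R K ((w⁻¹ : Rˣ) : R)) := by
          simp only [map_mul, map_pow, pow_add]
          ring
      _ = algebraMap R K (π ^ k * v) := by rw [hw1, mul_one, ← hk]
  · exfalso
    -- `c = π^(-(j-k)) * (v / w)`, so `π^(-(j-k)) ∈ Ov`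
    obtain ⟨d, hd⟩ : ∃ d, j = k + (d + 1) := ⟨j - k - 1, by omega⟩
    apply pi_pow_inv_not_mem M d
    have hvF : algebraMap R F (v : R) * algebraMap R F ((v⁻¹ : Rˣ) : R) = 1 := by
      rw [← map_mul, Units.mul_inv, map_one]
    have hv0 : algebraMap R F (v : R) ≠ 0 := left_ne_zero_of_mul_eq_one hvF
    have hw0 : algebraMap R F (w : R) ≠ 0 := by
      rw [IsScalarTower.algebraMap_apply R K F]
      exact (map_ne_zero (algebraMap K F)).mpr hwK
    have hp0 := M.pi_ne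
    have hmem : algebraMap R F ((w : R) * ((v⁻¹ : Rˣ) : R)) *
        algebraMap K F (algebraMap R K (π ^ k * v) / algebraMap R K (π ^ j * w)) ∈ Ov :=
      Ov.mul_mem _ _ (algebraMap_mem_Ov M _) hc
    have heq : algebraMap R F ((w : R) * ((v⁻¹ : Rˣ) : R)) *
        algebraMap K F (algebraMap R K (π ^ k * v) / algebraMap R K (π ^ j * w)) =
        ((algebraMap R F π) ^ (d + 1))⁻¹ := by
      rw [map_div₀, ← IsScalarTower.algebraMap_apply R K F, ← IsScalarTower.algebraMap_apply R K F,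
        hd]
      simp only [map_mul, map_pow, pow_add]
      have hvinv : algebraMap R F ((v⁻¹ : Rˣ) : R) = (algebraMap R F (v : R))⁻¹ :=
        eq_inv_of_mul_eq_one_right hvF
      rw [hvinv]
      field_simp
    rw [← heq]
    exact hmem

/-- **`H⁰ = R`**: if `K` is algebraically closed in `F`, then `B0 ∩ B1 = R`. -/
theorem h0_eq (M : TwoChartModel R K F π t B0 B1 Ov)
    (hKF : ∀ y : F, IsIntegral K y → ∃ c : K, algebraMap K F c = y)
    (x : F) (h0 : x ∈ B0) (h1 : x ∈ B1) : ∃ r : R, algebraMap R F r = x := by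
  have halg : IsAlgebraic K x :=
    Fermat.Agent.RED.CORE.Constants18.isAlgebraic_of_isIntegral_both (K := K) (R₀ := R) t x
      (M.int0 x h0) (M.int1 x h1)
  obtain ⟨c, rfl⟩ := hKF x (isAlgebraic_iff_isIntegral.mp halg)
  obtain ⟨r, rfl⟩ := exists_of_algebraMap_mem_Ov M c (M.le_Ov0 _ h0)
  exact ⟨r, IsScalarTower.algebraMap_apply R K F r⟩

/-- `H⁰` of the special fibre is the residue field of `R`, elementwise: sections `b0` on chart 0
and `b1` on chart 1 which agree modulo `π Ov` are congruent to a constant of `R`. -/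
def SpecialH0 (π : R) (B0 B1 : Subalgebra R F) (Ov : ValuationSubring F) : Prop :=
  ∀ b0 ∈ B0, ∀ b1 ∈ B1, (∃ y ∈ Ov, b0 - b1 = algebraMap R F π * y) →
    ∃ c : R, ∃ y ∈ Ov, b0 - algebraMap R F c = algebraMap R F π * y

/-- **`H¹` has no `π`-torsion**: if `π x = b0 + b1` with `x` in the overlap (`t ^ k * x ∈ B0`),
then `x ∈ B0 + B1`. -/
theorem h1_torsionFree (M : TwoChartModel R K F π t B0 B1 Ov) (hS : SpecialH0 π B0 B1 Ov)
    (x : F) (hx : ∃ k : ℕ, t ^ k * x ∈ B0) (b0 b1 : F) (hb0 : b0 ∈ B0) (hb1 : b1 ∈ B1)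
    (h : algebraMap R F π * x = b0 + b1) : ∃ y0 ∈ B0, ∃ y1 ∈ B1, x = y0 + y1 := by
  have hp0 := M.pi_ne
  -- `x ∈ Ov`
  have hxOv : x ∈ Ov := by
    obtain ⟨k, hk⟩ := hx
    have h1 : x = t⁻¹ ^ k * (t ^ k * x) := by
      rw [← mul_assoc, ← mul_pow, inv_mul_cancel₀ M.t_ne, one_pow, one_mul]
    rw [h1]
    exact Ov.mul_mem _ _ (pow_mem M.tinv_mem_Ov k) (M.le_Ov0 _ hk)
  obtain ⟨c, y, hy, hc⟩ := hS b0 hb0 (-b1) (B1.neg_mem hb1) ⟨x, hxOv, by rw [sub_neg_eq_add, h]⟩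
  -- `b0 - c = π y`, `y ∈ B0`
  have hy0 : y ∈ B0 := M.sat0 (b0 - algebraMap R F c) (B0.sub_mem hb0 (B0.algebraMap_mem c)) y hy hc
  -- `b1 + c = π (x - y)`, `x - y ∈ B1`
  have hc1 : b1 + algebraMap R F c = algebraMap R F π * (x - y) := by
    rw [mul_sub, h, ← hc]
    ring
  have hy1 : x - y ∈ B1 :=
    M.sat1 (b1 + algebraMap R F c) (B1.add_mem hb1 (B1.algebraMap_mem c)) (x - y)
      (sub_mem hxOv hy) hc1
  exact ⟨y, hy0, x - y, hy1, by ring⟩

/-- `H¹` has no `π`-power torsion. -/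
theorem h1_torsionFree_pow (M : TwoChartModel R K F π t B0 B1 Ov) (hS : SpecialH0 π B0 B1 Ov)
    (k : ℕ) (x : F) (hx : ∃ j : ℕ, t ^ j * x ∈ B0) (b0 b1 : F) (hb0 : b0 ∈ B0) (hb1 : b1 ∈ B1)
    (h : algebraMap R F π ^ k * x = b0 + b1) : ∃ y0 ∈ B0, ∃ y1 ∈ B1, x = y0 + y1 := by
  induction k generalizing x b0 b1 with
  | zero => exact ⟨b0, hb0, b1, hb1, by rw [← h, pow_zero, one_mul]⟩
  | succ k ih =>
    have hx' : ∃ j : ℕ, t ^ j * (algebraMap R F π ^ k * x) ∈ B0 := by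
      obtain ⟨j, hj⟩ := hx
      refine ⟨j, ?_⟩
      have : t ^ j * (algebraMap R F π ^ k * x) = algebraMap R F (π ^ k) * (t ^ j * x) := by
        rw [map_pow]; ring
      rw [this]
      exact B0.mul_mem (B0.algebraMap_mem _) hj
    obtain ⟨y0, hy0, y1, hy1, hy⟩ := h1_torsionFree M hS (algebraMap R F π ^ k * x) hx' b0 b1 hb0 hb1
      (by rw [← h, pow_succ]; ring)
    exact ih x hx y0 y1 hy0 hy1 hy

end Fermat.Agent.T1.ModelUnr4.CohAbs
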