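/-
Fermat/Agent/T1/ModelUnr4/Special.lean  (helper4, programme T1, bricks G0/G1 concrete side)

The two extra hypotheses of G1 MODEL-COH (helper30, `T1/ModelCoh30`) at the CONCRETE Gauss valuation
ring `gaussVS hπ E hE` of `E ⊂ Frac O((q))`:

* `exists_C_eq_of_isAlgebraic` : a field `κ` is algebraically closed in `κ((q))`;
* `gaussVSRed_algebraMap`, `gaussVSRed_eq_zero`, `exists_redC_eq` : the inputs `hred`, `hker`, `hL`
  of `ModelCoh30.resAlgClosed_of_red` for `red := gaussVSRed hπ E hE`, `redR := redC O`;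
* `resAlgClosed_gauss` : the residue field `κ = O/π` is algebraically closed in `Ov/π`, in the
  elementwise form `ModelCoh30.ResAlgClosed π (gaussVS hπ E hE)` (stated unfolded);
* `algClosedIn_FK'` : `K` is algebraically closed in `K·F_M` (form `hKF` of `ModelCoh30.h0`).
-/
import Fermat.Agent.RED.NumInst4
import Fermat.Agent.RED.BASE.TBridge15
import Fermat.Agent.RED.PUR.AlgClosedIn10

set_option autoImplicit false
set_option linter.unusedSectionVars false
set_option linter.unusedVariables false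

open HahnSeries Polynomial

noncomputable section

namespace Fermat.Agent.T1.ModelUnr4.Special

open Fermat.Agent.RED.PUR.GaussGen8 Fermat.Agent.RED.NumInst4 Fermat.Agent.RED.BASE.TBridge15

section Const

variable {κ : Type*} [Field κ]

/-- **A field `κ` is algebraically closed in `κ((q))`.** -/
theorem exists_C_eq_of_isAlgebraic {y : LaurentSeries κ} (hy : IsAlgebraic κ y) :
    ∃ c : κ, (HahnSeries.C c : LaurentSeries κ) = y := by
  obtain ⟨Y, hY⟩ := exists_ofPowerSeries_eq_of_isAlgebraic hy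
  refine ⟨PowerSeries.constantCoeff Y, ?_⟩
  by_contra hne
  have hC : (HahnSeries.C (PowerSeries.constantCoeff Y) : LaurentSeries κ)
      = algebraMap κ (LaurentSeries κ) (PowerSeries.constantCoeff Y) :=
    (Fermat.Agent.RED.PUR.GaussGen8.algebraMap_eq_C _).symm
  have hz : IsAlgebraic κ (y - HahnSeries.C (PowerSeries.constantCoeff Y)) := by
    rw [hC]
    exact hy.sub (isAlgebraic_algebraMap _)
  have hz0 : y - HahnSeries.C (PowerSeries.constantCoeff Y) ≠ 0 :=
    sub_ne_zero.mpr (Ne.symm hne)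
  obtain ⟨W, hW⟩ := exists_ofPowerSeries_eq_of_isAlgebraic hz.inv
  have h1 : HahnSeries.ofPowerSeries ℤ κ ((Y - PowerSeries.C (PowerSeries.constantCoeff Y)) * W)
      = HahnSeries.ofPowerSeries ℤ κ 1 := by
    rw [map_mul, map_sub, hY, hW, HahnSeries.ofPowerSeries_C, map_one, mul_inv_cancel₀ hz0]
  have h2 := HahnSeries.ofPowerSeries_injective h1
  have h3 := congrArg PowerSeries.constantCoeff h2
  simp at h3

end Const

section Gauss

variable {K : Type*} [Field K] {O : ValuationSubring K}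
  {E : IntermediateField K (LaurentSeries K)}

/-- reduction of the constants `O → κ ⊂ κ((q))`. -/
def redC (O : ValuationSubring K) : ↥O →+* LaurentSeries (Res O) :=
  (HahnSeries.C : Res O →+* LaurentSeries (Res O)).comp (res0 O)

theorem redC_apply (r : ↥O) : redC O r = HahnSeries.C (res0 O r) := rfl

theorem algebraMap_mem_gaussVS {π : ↥O} (hπ : IsUnif O π) (hE : E ≤ fracField O) (r : ↥O) :
    algebraMap ↥O ↥E r ∈ gaussVS hπ E hE := by
  rw [mem_gaussVS_iff, coe_algebraMap_OE]
  exact C_mem O r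

/-- (`hred`) the reduction of a constant. -/
theorem gaussVSRed_algebraMap {π : ↥O} (hπ : IsUnif O π) (hE : E ≤ fracField O) (r : ↥O)
    (h : algebraMap ↥O ↥E r ∈ gaussVS hπ E hE) :
    gaussVSRed hπ E hE ⟨_, h⟩ = redC O r := by
  rw [gaussVSRed_apply, redC_apply, ← gaussRed_constG]
  congr 1
  exact Subtype.ext (coe_algebraMap_OE O E r)

/-- (`hpi`) -/
theorem redC_unif {π : ↥O} (hπ : IsUnif O π) : redC O π = 0 := by
  rw [redC_apply, res0_unif hπ, map_zero]

/-- (`hker`) the kernel of the reduction is `π · Ov`. -/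
theorem gaussVSRed_eq_zero {π : ↥O} (hπ : IsUnif O π) (hE : E ≤ fracField O)
    (x : ↥(gaussVS hπ E hE)) (hx : gaussVSRed hπ E hE x = 0) :
    ∃ c ∈ gaussVS hπ E hE, ((x : ↥(gaussVS hπ E hE)) : ↥E) = algebraMap ↥O ↥E π * c := by
  rw [gaussVSRed_apply] at hx
  obtain ⟨g, hg⟩ := (gaussRed_eq_zero_iff hπ _).mp hx
  have hg' : (((x : ↥(gaussVS hπ E hE)) : ↥E) : LaurentSeries K)
      = HahnSeries.C ((π : ↥O) : K) * (g : LaurentSeries K) := congrArg Subtype.val hg
  have hp0 : (HahnSeries.C ((π : ↥O) : K) : LaurentSeries K) ≠ 0 := piK_ne_zero hπ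
  have hpE : algebraMap ↥O ↥E π ≠ 0 := by
    intro h0
    apply hp0
    rw [← coe_algebraMap_OE O E π, h0]
    rfl
  refine ⟨((x : ↥(gaussVS hπ E hE)) : ↥E) / algebraMap ↥O ↥E π, ?_, ?_⟩
  · rw [mem_gaussVS_iff]
    have h1 : ((((x : ↥(gaussVS hπ E hE)) : ↥E) / algebraMap ↥O ↥E π : ↥E) : LaurentSeries K)
        = (g : LaurentSeries K) := by
      push_cast
      rw [coe_algebraMap_OE, hg', mul_div_assoc, mul_comm, div_mul_cancel₀ _ hp0]
    rw [h1]
    exact g.2
  · field_simp

/-- (`hL`) a Laurent series over `κ = O/π` algebraic over (the image of) `O` is a constant. -/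
theorem exists_redC_eq (y : LaurentSeries (Res O))
    (hy : ∃ p : (↥O)[X], p.map (redC O) ≠ 0 ∧ (p.map (redC O)).eval y = 0) :
    ∃ r : ↥O, redC O r = y := by
  obtain ⟨p, hp0, hpy⟩ := hy
  have hmap : p.map (redC O) = (p.map (res0 O)).map (algebraMap (Res O) (LaurentSeries (Res O))) := by
    rw [Polynomial.map_map]
    congr 1
    ext1 r
    rw [RingHom.comp_apply, Fermat.Agent.RED.PUR.GaussGen8.algebraMap_eq_C]
    rfl
  have halg : IsAlgebraic (Res O) y := by
    refine ⟨p.map (res0 O), ?_, ?_⟩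
    · intro h0
      apply hp0
      rw [hmap, h0, Polynomial.map_zero]
    · rw [Polynomial.aeval_def, ← Polynomial.eval_map, ← hmap]
      exact hpy
  obtain ⟨c, hc⟩ := exists_C_eq_of_isAlgebraic halg
  obtain ⟨r, hr⟩ := IsLocalRing.residue_surjective c
  exact ⟨r, by rw [redC_apply, ← hc]; exact congrArg _ hr⟩

/-- **The residue field `κ = O/π` is algebraically closed in the residue field of the Gauss
valuation ring**, elementwise form (`= ModelCoh30.ResAlgClosed π (gaussVS hπ E hE)` unfolded). -/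
theorem resAlgClosed_gauss {π : ↥O} (hπ : IsUnif O π) (hE : E ≤ fracField O) :
    ∀ x ∈ gaussVS hπ E hE, ∀ p : (↥O)[X], (∃ i, ¬ π ∣ p.coeff i) →
      (∃ c ∈ gaussVS hπ E hE, aeval x p = algebraMap ↥O ↥E π * c) →
      ∃ r : ↥O, ∃ c ∈ gaussVS hπ E hE, x - algebraMap ↥O ↥E r = algebraMap ↥O ↥E π * c := by
  intro x hx p ⟨i, hi⟩ ⟨c, hc, hpc⟩
  -- the constants as a ring hom into `Ov`
  let ι : ↥O →+* ↥(gaussVS hπ E hE) :=
    (algebraMap ↥O ↥E).codRestrict (gaussVS hπ E hE).toSubring
      (fun r => algebraMap_mem_gaussVS hπ hE r)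
  have hι : (gaussVSRed hπ E hE).comp ι = redC O := by
    ext1 r
    exact gaussVSRed_algebraMap hπ hE r _
  have hsub : ((gaussVS hπ E hE).toSubring.subtype).comp ι = algebraMap ↥O ↥E := by
    ext1 r
    rfl
  let xv : ↥(gaussVS hπ E hE) := ⟨x, hx⟩
  let cv : ↥(gaussVS hπ E hE) := ⟨c, hc⟩
  -- `p(x) = π c` inside `Ov`
  have h1 : Polynomial.eval₂ ι xv p = ι π * cv := by
    apply Subtype.ext
    have h2 := Polynomial.hom_eval₂ p ι ((gaussVS hπ E hE).toSubring.subtype) xv
    rw [hsub] at h2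
    show (gaussVS hπ E hE).toSubring.subtype (Polynomial.eval₂ ι xv p) = _
    rw [h2]
    exact hpc
  -- reduce
  have h3 : (p.map (redC O)).eval (gaussVSRed hπ E hE xv) = 0 := by
    rw [Polynomial.eval_map, ← hι, ← Polynomial.hom_eval₂, h1, map_mul]
    have : (gaussVSRed hπ E hE) (ι π) = 0 := by
      have := congrArg (fun f => f π) hι
      simp only [RingHom.comp_apply] at this
      rw [this, redC_unif hπ]
    rw [this, zero_mul]
  have h4 : p.map (redC O) ≠ 0 := by
    intro h0
    have := congrArg (fun q => Polynomial.coeff q i) h0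
    simp only [Polynomial.coeff_map, Polynomial.coeff_zero, redC_apply] at this
    have h5 : res0 O (p.coeff i) = 0 := by
      have h6 := congrArg (fun s => HahnSeries.coeff s 0) this
      simpa using h6
    obtain ⟨x', hx'⟩ := (res0_eq_zero_iff hπ _).mp h5
    exact hi ⟨x', hx'⟩
  obtain ⟨r, hr⟩ := exists_redC_eq (gaussVSRed hπ E hE xv) ⟨p, h4, h3⟩
  have h7 : gaussVSRed hπ E hE (xv - ι r) = 0 := by
    rw [map_sub, ← hr]
    have := congrArg (fun f => f r) hι
    simp only [RingHom.comp_apply] at this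
    rw [this, sub_self]
  obtain ⟨c', hc', hxc⟩ := gaussVSRed_eq_zero hπ hE (xv - ι r) h7
  exact ⟨r, c', hc', hxc⟩

end Gauss

section Concrete

open Fermat.Agent.RED.Interface4 Fermat.Agent.X0

/-- `K` is algebraically closed in `K·F_M` (the hypothesis `hKF` of `ModelCoh30.h0`). -/
theorem algClosedIn_FK' (M : ℕ) [NeZero M] (K : IntermediateField ℚ Qbar) (y : ↥(FK M K))
    (hy : IsAlgebraic ↥K y) : ∃ c : ↥K, algebraMap ↥K ↥(FK M K) c = y :=
  Fermat.Agent.RED.PUR.AlgClosedIn10.algClosedIn_FK M K y (isAlgebraic_iff_isIntegral.mp hy)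

end Concrete

end Fermat.Agent.T1.ModelUnr4.Special
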